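import Fermat.Agent.S52B.Main
import Fermat.Agent.S52A.Iface

/-!
# The geometric system
-/

set_option autoImplicit false
set_option linter.unusedSectionVars false
set_option linter.style.haveILetI false

noncomputable section

namespace Fermat.Agent.S52B

open Matrix Module WeierstrassCurve WeierstrassCurve.Affine Fermat.Agent.S52L Fermat.Agent.GalRep
  Fermat.Agent.PRem Fermat.Agent.CL Fermat.Agent.ImW Fermat.Agent.EC Fermat.Agent.Sel

local notation "Ω" => AlgebraicClosure ℚ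

local notation "𝒢" => (AlgebraicClosure ℚ) ≃ₐ[ℚ] (AlgebraicClosure ℚ)

/-- the coefficients of the short model -/
def cA (d : ℤ) (V : WeierstrassCurve ℤ) : Ω := -27 * ((d : Ω) ^ 4 * V.c₄)

/-- the coefficients of the short model -/
def cB (d : ℤ) (V : WeierstrassCurve ℤ) : Ω := -54 * ((d : Ω) ^ 6 * V.c₆)

theorem vcE {d : ℤ} (hd : d ≠ 0) (V : WeierstrassCurve ℤ) :
    VC (S52A.EC (cA d V) (cB d V)) ((EQ V).map (algebraMap ℚ Ω)) (6 * (d : Ω))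
      (3 * (d : Ω) ^ 2 * V.b₂) (3 * (d : Ω) * V.a₁) (108 * (d : Ω) ^ 3 * V.a₃) := by
  have hd' : (d : Ω) ≠ 0 := by exact_mod_cast hd
  refine ⟨mul_ne_zero (by norm_num) hd', ?_, ?_, ?_, ?_, ?_⟩
  all_goals
    simp only [S52A.EC, cA, cB, WeierstrassCurve.map_a₁, WeierstrassCurve.map_a₂,
      WeierstrassCurve.map_a₃, WeierstrassCurve.map_a₄, WeierstrassCurve.map_a₆, eq_intCast,
      map_intCast, WeierstrassCurve.c₄, WeierstrassCurve.c₆, WeierstrassCurve.b₂,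
      WeierstrassCurve.b₄, WeierstrassCurve.b₆]
    push_cast
    ring

/-- the map to the short model -/
def psi {d : ℤ} (hd : d ≠ 0) (V : WeierstrassCurve ℤ) (hΔ : (S52A.EC (cA d V) (cB d V)).Δ ≠ 0) :
    ((EQ V)⁄Ω).Point →+ (S52A.EC (cA d V) (cB d V)).toAffine.Point :=
  (vcE hd V).pt hΔ

theorem psi_some {d : ℤ} (hd : d ≠ 0) (V : WeierstrassCurve ℤ)
    (hΔ : (S52A.EC (cA d V) (cB d V)).Δ ≠ 0) {x y : Ω} (e : ((EQ V)⁄Ω).Nonsingular x y) :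
    psi hd V hΔ (Point.some x y e) = Point.some ((6 * (d : Ω)) ^ 2 * x + 3 * (d : Ω) ^ 2 * V.b₂)
      ((6 * (d : Ω)) ^ 3 * y + (6 * (d : Ω)) ^ 2 * (3 * (d : Ω) * V.a₁) * x +
        108 * (d : Ω) ^ 3 * V.a₃)
      ((Affine.equation_iff_nonsingular_of_Δ_ne_zero hΔ).mp
        (((vcE hd V).equation x y).mpr e.1)) := rfl

theorem psi_injective {d : ℤ} (hd : d ≠ 0) (V : WeierstrassCurve ℤ)
    (hΔ : (S52A.EC (cA d V) (cB d V)).Δ ≠ 0) : Function.Injective (psi hd V hΔ) :=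
  (vcE hd V).pt_injective hΔ

theorem psi_surjective {d : ℤ} (hd : d ≠ 0) {V : WeierstrassCurve ℤ} (hV : V.Δ ≠ 0)
    (hΔ : (S52A.EC (cA d V) (cB d V)).Δ ≠ 0) : Function.Surjective (psi hd V hΔ) := by
  refine (vcE hd V).pt_surjective hΔ ?_
  rw [WeierstrassCurve.map_Δ, WeierstrassCurve.map_Δ, eq_intCast, map_intCast]
  exact_mod_cast hV

theorem gal_some (V : WeierstrassCurve ℤ) (σ : 𝒢) {x y : Ω} (e : ((EQ V)⁄Ω).Nonsingular x y) :
    ∃ e' : ((EQ V)⁄Ω).Nonsingular (σ x) (σ y),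
      σ • (Point.some x y e : ((EQ V)⁄Ω).Point) = Point.some (σ x) (σ y) e' :=
  ⟨_, rfl⟩

theorem psi_gal {d : ℤ} (hd : d ≠ 0) (V : WeierstrassCurve ℤ)
    (hΔ : (S52A.EC (cA d V) (cB d V)).Δ ≠ 0) (σ : 𝒢) {P : ((EQ V)⁄Ω).Point} {X Y X' Y' : Ω}
    {h : (S52A.EC (cA d V) (cB d V)).toAffine.Nonsingular X Y}
    {h' : (S52A.EC (cA d V) (cB d V)).toAffine.Nonsingular X' Y'}
    (hP : psi hd V hΔ P = .some X Y h) (hX : σ X = X') (hY : σ Y = Y') :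
    psi hd V hΔ (σ • P) = .some X' Y' h' := by
  subst hX hY
  have hn : ∀ n : ℤ, σ (n : Ω) = n := fun n => map_intCast σ n
  rcases P with _ | ⟨x, y, e⟩
  · exact absurd hP (Point.some_ne_zero _).symm
  · rw [psi_some, Point.some.injEq] at hP
    obtain ⟨h1, h2⟩ := hP
    obtain ⟨e', he'⟩ := gal_some V σ e
    rw [he', psi_some, Point.some.injEq, ← h1, ← h2]
    simp only [map_add, map_mul, map_pow, hn, map_ofNat, and_self]

/-- the torsion points attached to an icosahedral vector -/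
def PrI {d : ℤ} (hd : d ≠ 0) (V : WeierstrassCurve ℤ) (z a b : Ω) (p q : TE (EQ V) 5) : Prop :=
  ∃ (hz : z ^ 4 + z ^ 3 + z ^ 2 + z + 1 = 0) (h : S52A.Par (cA d V) (cB d V) a b),
    psi hd V (S52A.EC_Δ h) p = S52A.PP hz h ∧ psi hd V (S52A.EC_Δ h) q = S52A.QQ h

theorem par_of {d : ℤ} (hd : d ≠ 0) {V : WeierstrassCurve ℤ} (hV : V.Δ ≠ 0) {a b : Ω}
    (h4 : C4 a b = (d : Ω) ^ 4 * V.c₄) (h6 : C6 a b = (d : Ω) ^ 6 * V.c₆) :
    S52A.Par (cA d V) (cB d V) a b := by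
  refine ⟨fun h0 => ?_, by rw [cA, h4], by rw [cB, h6]⟩
  have h1 := syzygy a b
  have h2 := congrArg (Int.cast : ℤ → Ω) V.c_relation
  push_cast at h2
  have hd' : (d : Ω) ≠ 0 := by exact_mod_cast hd
  have hV' : (V.Δ : Ω) ≠ 0 := by exact_mod_cast hV
  rw [h4, h6, h0] at h1
  have h3 : (d : Ω) ^ 12 * (1728 * V.Δ) = 0 := by
    linear_combination h1 + (d : Ω) ^ 12 * h2
  rcases mul_eq_zero.1 h3 with h | h
  · exact pow_ne_zero 12 hd' h
  · exact hV' ((mul_eq_zero.1 h).resolve_left (by norm_num))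

theorem mem_TE {V : WeierstrassCurve ℤ} {P : ((EQ V)⁄Ω).Point} :
    P ∈ TE (EQ V) 5 ↔ 5 • P = 0 := by
  rw [Submodule.mem_torsionBy_iff]
  constructor
  · intro h; exact_mod_cast h
  · intro h; exact_mod_cast h

variable [h5 : Fact (Nat.Prime 5)]

theorem coe_smul {V : WeierstrassCurve ℤ} (i : ZMod 5) (x : TE (EQ V) 5) :
    ((i • x : TE (EQ V) 5) : ((EQ V)⁄Ω).Point) = i.val • (x : ((EQ V)⁄Ω).Point) := by
  conv_lhs => rw [← ZMod.natCast_zmod_val i]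
  rw [natCast_smul_TE]
  rfl

theorem prim_pow {z : Ω} (hz : z ^ 4 + z ^ 3 + z ^ 2 + z + 1 = 0) {k : ℕ} (hk : k.Coprime 5) :
    (z ^ k) ^ 4 + (z ^ k) ^ 3 + (z ^ k) ^ 2 + z ^ k + 1 = 0 := by
  have h1 : z ^ 5 = 1 := pow_five hz
  have h2 : z ^ k - 1 ≠ 0 := by
    intro h0
    have h3 : z ^ k = 1 := sub_eq_zero.1 h0
    have h4 : z ^ Nat.gcd k 5 = 1 := pow_gcd_eq_one.2 ⟨h3, h1⟩
    rw [hk.gcd_eq_one, pow_one] at h4
    rw [h4] at hz
    norm_num at hz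
  have h3 : (z ^ k - 1) * ((z ^ k) ^ 4 + (z ^ k) ^ 3 + (z ^ k) ^ 2 + z ^ k + 1) = 0 := by
    have h4 : (z ^ k) ^ 5 = 1 := by rw [← pow_mul, mul_comm, pow_mul, h1, one_pow]
    linear_combination h4
  exact (mul_eq_zero.1 h3).resolve_left h2

theorem coprime_val {j : ZMod 5} (hj : j ≠ 0) : j.val.Coprime 5 := by
  refine (Nat.Coprime.symm ?_)
  rw [Nat.Prime.coprime_iff_not_dvd h5.out]
  intro hd
  have := Nat.eq_zero_of_dvd_of_lt hd (ZMod.val_lt j)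
  exact hj ((ZMod.val_eq_zero j).1 this)

/-- **the geometric system** -/
theorem sys {d : ℤ} (hd : d ≠ 0) : Sys d (PrI hd) where
  ex V hV z a b hz h4 h6 := by
    have h := par_of hd hV h4 h6
    obtain ⟨P, hP⟩ := psi_surjective hd hV (S52A.EC_Δ h) (S52A.PP hz h)
    obtain ⟨Q, hQ⟩ := psi_surjective hd hV (S52A.EC_Δ h) (S52A.QQ h)
    refine ⟨⟨P, mem_TE.2 ?_⟩, ⟨Q, mem_TE.2 ?_⟩, hz, h, hP, hQ⟩
    · apply psi_injective hd V (S52A.EC_Δ h)
      rw [map_nsmul, hP, S52A.five_PP, _root_.map_zero]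
    · apply psi_injective hd V (S52A.EC_Δ h)
      rw [map_nsmul, hQ, S52A.five_QQ, _root_.map_zero]
  li := by
    rintro V z a b p q ⟨hz, h, hp, hq⟩ i j hij
    have h1 := congrArg (fun x : TE (EQ V) 5 => psi hd V (S52A.EC_Δ h) x) hij
    simp only [Submodule.coe_add, coe_smul, map_add, map_nsmul, Submodule.coe_zero,
      _root_.map_zero, hp, hq] at h1
    have h2 := S52A.indep hz h (i := (i.val : ℤ)) (j := (j.val : ℤ)) (by
      rw [natCast_zsmul, natCast_zsmul]; exact h1)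
    constructor
    · have := (ZMod.intCast_zmod_eq_zero_iff_dvd (i.val : ℤ) 5).2 h2.1
      rwa [Int.cast_natCast, ZMod.natCast_zmod_val] at this
    · have := (ZMod.intCast_zmod_eq_zero_iff_dvd (j.val : ℤ) 5).2 h2.2
      rwa [Int.cast_natCast, ZMod.natCast_zmod_val] at this
  uniq := by
    rintro V z a b p q p' q' ⟨hz, h, hp, hq⟩ ⟨hz', h', hp', hq'⟩
    exact ⟨Subtype.ext (psi_injective hd V (S52A.EC_Δ h) (hp.trans hp'.symm)),
      Subtype.ext (psi_injective hd V (S52A.EC_Δ h) (hq.trans hq'.symm))⟩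
  gal := by
    rintro V z a b p q ⟨hz, h, hp, hq⟩ σ
    have hz' : (σ z) ^ 4 + (σ z) ^ 3 + (σ z) ^ 2 + σ z + 1 = 0 := by
      have := congrArg σ hz
      simpa only [map_add, map_pow, map_one, _root_.map_zero] using this
    have hfA : σ (cA d V) = cA d V := by
      simp only [cA, map_mul, map_neg, map_ofNat, map_pow, map_intCast]
    have hfB : σ (cB d V) = cB d V := by
      simp only [cB, map_mul, map_neg, map_ofNat, map_pow, map_intCast]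
    have h' : S52A.Par (cA d V) (cB d V) (σ a) (σ b) := by
      refine ⟨?_, ?_, ?_⟩
      · rw [← gal_DD]
        exact (map_ne_zero σ).2 h.hD
      · rw [← gal_C4, ← hfA, h.hA, map_mul, map_neg, map_ofNat]
      · rw [← gal_C6, ← hfB, h.hB, map_mul, map_neg, map_ofNat]
    refine ⟨hz', h', ?_, ?_⟩
    · exact psi_gal hd V (S52A.EC_Δ h) σ hp (S52A.map_xP (σ : Ω →+* Ω) z a b)
        (S52A.map_yP (σ : Ω →+* Ω) z a b)
    · exact psi_gal hd V (S52A.EC_Δ h) σ hq (S52A.map_xQ (σ : Ω →+* Ω) a b)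
        (S52A.map_yQ (σ : Ω →+* Ω) a b)
  pow := by
    rintro V z a b p q ⟨hz, h, hp, hq⟩ j hj
    refine ⟨prim_pow hz (coprime_val hj), h, ?_, hq⟩
    rw [coe_smul, map_nsmul, hp, S52A.PP_pow hz h]
  cov := by
    rintro V z a b a' b' p q g - ⟨hz, h, hp, hq⟩ hDD hg ⟨hz', h', hp', hq'⟩ x y
    have h1 : S52A.PP hz h' = (g 0 0).val • S52A.PP hz h + (g 1 0).val • S52A.QQ h := by
      rw [← hp', Submodule.coe_add, coe_smul, coe_smul, map_add, map_nsmul, map_nsmul, hp, hq]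
    have h2 : S52A.QQ h' = (g 0 1).val • S52A.PP hz h + (g 1 1).val • S52A.QQ h := by
      rw [← hq', Submodule.coe_add, coe_smul, coe_smul, map_add, map_nsmul, map_nsmul, hp, hq]
    obtain ⟨e4, e6, eD, e⟩ := S52A.cov hz h h' hDD g hg h1 h2 x y
    refine ⟨e4, e6, eD, ?_⟩
    rintro V' p₁ q₁ ⟨hz₁, k, hp₁, hq₁⟩
    have k' : S52A.Par (cA d V') (cB d V') (va a' b' x y) (vb a' b' x y) :=
      ⟨by rw [eD]; exact k.hD, by rw [e4]; exact k.hA, by rw [e6]; exact k.hB⟩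
    obtain ⟨e1, e2⟩ := e k k'
    refine ⟨hz, k', ?_, ?_⟩
    · rw [e1, Submodule.coe_add, coe_smul, coe_smul, map_add, map_nsmul, map_nsmul, hp₁, hq₁]
    · rw [e2, Submodule.coe_add, coe_smul, coe_smul, map_add, map_nsmul, map_nsmul, hp₁, hq₁]
  inj := by
    rintro V z a b a' b' p q ⟨hz, h, hp, hq⟩ ⟨hz', h', hp', hq'⟩ hDD
    have := S52A.inj hz h h' hDD.symm (hp'.symm.trans hp) (hq'.symm.trans hq)
    exact ⟨this.1.symm, this.2.symm⟩

/-- **part (B)** -/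
theorem partB {W : WeierstrassCurve ℤ} {ρ : 𝒢 →* M2 (ZMod 5)} (hΔ : W.Δ ≠ 0) (h : ResW W 5 ρ)
    {a b : Ω} (h4 : C4 a b = (W.Δ : Ω) ^ 8 * W.c₄) (h6 : C6 a b = (W.Δ : Ω) ^ 12 * W.c₆)
    (hD : DD a b = (W.Δ : Ω) ^ 5) :
    (∀ σ, ρ σ = 1 → σ a = a ∧ σ b = b) ∧
      (∀ x y : ℚ, (∃ r : ℚ, C4 (va a b x y) (vb a b x y) = algebraMap ℚ Ω r) ∧
        (∃ r : ℚ, C6 (va a b x y) (vb a b x y) = algebraMap ℚ Ω r) ∧
        ∃ r : ℚ, DD (va a b x y) (vb a b x y) = algebraMap ℚ Ω r) ∧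
      ∀ (x y : ℚ) (W' : WeierstrassCurve ℤ), W'.Δ ≠ 0 →
        C4 (va a b x y) (vb a b x y) = (W.Δ : Ω) ^ 8 * W'.c₄ →
        C6 (va a b x y) (vb a b x y) = (W.Δ : Ω) ^ 12 * W'.c₆ →
        ∀ ℓ : ℕ, ℓ.Prime → W.IsGoodPrimeFor ℓ → W'.IsGoodPrimeFor ℓ → ℓ ≠ 5 →
          (5 : ℤ) ∣ W'.apOfModel ℓ - W.apOfModel ℓ :=
  partB_of hΔ h (sys (pow_ne_zero 2 hΔ)) h4 h6 hD

end Fermat.Agent.S52B
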