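import Fermat.Agent.PRem.BLR
import Fermat.Agent.CL.Model

/-!
# Congruence of the coefficients of curves with the same `p`-torsion; the short model
-/

set_option autoImplicit false
set_option linter.unusedSectionVars false
set_option linter.style.haveILetI false

noncomputable section

namespace Fermat.Agent.S52B

open WeierstrassCurve WeierstrassCurve.Affine WeierstrassCurve.Affine.Point Module
open Fermat.Agent.GalRep Fermat.Agent.PRem Fermat.Agent.CL

local notation "Qb" => AlgebraicClosure ℚ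

variable {p : ℕ} [hp : Fact p.Prime] {E1 E2 : WeierstrassCurve ℚ} [E1.IsElliptic] [E2.IsElliptic]
  {W1 W2 : WeierstrassCurve ℤ}

/-- the coefficients are congruent as soon as there is a nonzero equivariant map -/
theorem ap_congr_of_hom (hp2 : p ≠ 2) (h1 : W1.IsIntegralModelOf E1) (h2 : W2.IsIntegralModelOf E2)
    (f : TE E1 p →+ TE E2 p) (x : TE E1 p) (hx : f x ≠ 0)
    (heq : ∀ (σ : GQ) (y : TE E1 p), f (σ • y) = σ • f y) {l : ℕ} (hl : l.Prime) (hlp : l ≠ p)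
    (hg1 : W1.IsGoodPrimeFor l) (hg2 : W2.IsGoodPrimeFor l) :
    (p : ℤ) ∣ W2.apOfModel l - W1.apOfModel l := by
  haveI : Fact l.Prime := ⟨hl⟩
  have hodd : Odd p := hp.out.odd_of_ne_two hp2
  have hlp' : ¬ l ∣ p := fun h => hlp ((Nat.prime_dvd_prime_iff_eq hl hp.out).1 h)
  obtain ⟨A, hA⟩ := Places.exists_liesOverPrime Qb hl
  obtain ⟨τ, hτ⟩ := Places.exists_isFrobeniusAt A hl hA
  have hS1 : l ∉ badS W1 1 p := by
    simp only [badS, one_mul, Set.mem_ofPred_eq, not_or, not_not]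
    exact ⟨hlp', hg1⟩
  have hS2 : l ∉ badS W2 1 p := by
    simp only [badS, one_mul, Set.mem_ofPred_eq, not_or, not_not]
    exact ⟨hlp', hg2⟩
  have e1 := LinearMap.congr_fun ((frobRel_E (E := E1) hp2 h1 1).frob l hl hS1 A hA τ hτ)
    (τ⁻¹ • x)
  have e2 := LinearMap.congr_fun ((frobRel_E (E := E2) hp2 h2 1).frob l hl hS2 A hA τ hτ)
    (τ⁻¹ • f x)
  change τ • τ • τ⁻¹ • x - ((W1.apOfModel l : ℤ) : ZMod p) • τ • τ⁻¹ • x + (l : ZMod p) • τ⁻¹ • x = 0 at e1
  change τ • τ • τ⁻¹ • f x - ((W2.apOfModel l : ℤ) : ZMod p) • τ • τ⁻¹ • f x +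
    (l : ZMod p) • τ⁻¹ • f x = 0 at e2
  rw [smul_inv_smul, intCast_smul_TE, natCast_smul_TE] at e1 e2
  have e3 := congrArg f e1
  rw [map_add, map_sub, heq, map_zsmul, map_nsmul, heq, _root_.map_zero] at e3
  have e4 : (W2.apOfModel l - W1.apOfModel l) • f x = 0 := by
    rw [sub_smul, sub_eq_zero]
    have e5 := sub_eq_zero.2 (e3.trans e2.symm)
    rw [add_sub_add_right_eq_sub, sub_sub_sub_cancel_left, sub_eq_zero] at e5
    exact e5
  rw [← intCast_smul_TE, smul_eq_zero] at e4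
  exact (ZMod.intCast_zmod_eq_zero_iff_dvd _ p).1 (e4.resolve_right hx)

/-- the coefficients are congruent as soon as Galois acts by the same matrices on two bases -/
theorem ap_congr_of_basis (hp2 : p ≠ 2) (h1 : W1.IsIntegralModelOf E1)
    (h2 : W2.IsIntegralModelOf E2) {P Q : (E1⁄Qb).Point} {P' Q' : (E2⁄Qb).Point}
    (hP : p • P = 0) (hQ : p • Q = 0) (hP' : p • P' = 0) (hQ' : p • Q' = 0)
    (hi : ∀ i j : ℤ, i • P + j • Q = 0 → (p : ℤ) ∣ i ∧ (p : ℤ) ∣ j)
    (hi' : ∀ i j : ℤ, i • P' + j • Q' = 0 → (p : ℤ) ∣ i ∧ (p : ℤ) ∣ j)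
    (hM : ∀ σ : GQ, ∃ a b c d : ℤ, σ • P = a • P + c • Q ∧ σ • Q = b • P + d • Q ∧
      σ • P' = a • P' + c • Q' ∧ σ • Q' = b • P' + d • Q') {l : ℕ} (hl : l.Prime) (hlp : l ≠ p)
    (hg1 : W1.IsGoodPrimeFor l) (hg2 : W2.IsGoodPrimeFor l) :
    (p : ℤ) ∣ W2.apOfModel l - W1.apOfModel l := by
  haveI : Fact l.Prime := ⟨hl⟩
  have hodd : Odd p := hp.out.odd_of_ne_two hp2
  have hlp' : ¬ l ∣ p := fun h => hlp ((Nat.prime_dvd_prime_iff_eq hl hp.out).1 h)
  obtain ⟨A, hA⟩ := Places.exists_liesOverPrime Qb hl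
  obtain ⟨τ, hτ⟩ := Places.exists_isFrobeniusAt A hl hA
  obtain ⟨a, b, c, d, e1, e2, e3, e4⟩ := hM τ
  have key : ∀ (E : WeierstrassCurve ℚ) [E.IsElliptic] (W : WeierstrassCurve ℤ),
      W.IsIntegralModelOf E → W.IsGoodPrimeFor l → ∀ P Q : (E⁄Qb).Point, p • P = 0 → p • Q = 0 →
      (∀ i j : ℤ, i • P + j • Q = 0 → (p : ℤ) ∣ i ∧ (p : ℤ) ∣ j) →
      τ • P = a • P + c • Q → τ • Q = b • P + d • Q →
      ((p : ℤ) ∣ a * a + c * b - W.apOfModel l * a + l ∧ (p : ℤ) ∣ a * c + c * d - W.apOfModel l * c) ∧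
      ((p : ℤ) ∣ b * a + d * b - W.apOfModel l * b ∧ (p : ℤ) ∣ b * c + d * d - W.apOfModel l * d + l) := by
    intro E _ W hW hg P Q hP hQ hi f1 f2
    have g1 := EC.frobenius_rel_of_model hW hg hA hτ hodd hlp' hP
    have g2 := EC.frobenius_rel_of_model hW hg hA hτ hodd hlp' hQ
    have hz : ∀ (n : ℤ) (R : (E⁄Qb).Point), τ • n • R = n • τ • R := fun n R =>
      map_zsmul (DistribSMul.toAddMonoidHom (E⁄Qb).Point τ) n R
    rw [f1, smul_add, hz, hz, f1, f2] at g1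
    rw [f2, smul_add, hz, hz, f1, f2] at g2
    constructor
    · apply hi
      rw [← g1]
      module
    · apply hi
      rw [← g2]
      module
  obtain ⟨⟨k1, k2⟩, k3, k4⟩ := key E1 W1 h1 hg1 P Q hP hQ hi e1 e2
  obtain ⟨⟨k5, k6⟩, k7, k8⟩ := key E2 W2 h2 hg2 P' Q' hP' hQ' hi' e3 e4
  have hpp : Prime (p : ℤ) := Nat.prime_iff_prime_int.1 hp.out
  have m1 : (p : ℤ) ∣ (W2.apOfModel l - W1.apOfModel l) * a := by
    have := dvd_sub k1 k5
    have h : (W2.apOfModel l - W1.apOfModel l) * a = (a * a + c * b - W1.apOfModel l * a + l) -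
      (a * a + c * b - W2.apOfModel l * a + l) := by ring
    rwa [h]
  have m2 : (p : ℤ) ∣ (W2.apOfModel l - W1.apOfModel l) * c := by
    have := dvd_sub k2 k6
    have h : (W2.apOfModel l - W1.apOfModel l) * c = (a * c + c * d - W1.apOfModel l * c) -
      (a * c + c * d - W2.apOfModel l * c) := by ring
    rwa [h]
  rcases hpp.dvd_or_dvd m1 with h | ha
  · exact h
  rcases hpp.dvd_or_dvd m2 with h | hc
  · exact h
  exfalso
  have h5 : (p : ℤ) ∣ l := by
    have h : (l : ℤ) = (a * a + c * b - W1.apOfModel l * a + l) - (a * (a - W1.apOfModel l) + c * b) := by ring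
    rw [h]
    exact dvd_sub k1 (dvd_add (Dvd.dvd.mul_right ha _) (Dvd.dvd.mul_right hc _))
  exact hlp ((Nat.prime_dvd_prime_iff_eq hp.out hl).1 (by exact_mod_cast h5)).symm

/-- the short model -/
theorem isIntegralModelOf_short (W : WeierstrassCurve ℤ) {D : ℚ} (hD : D ≠ 0) :
    W.IsIntegralModelOf ⟨0, 0, 0, -27 * (D ^ 4 * W.c₄), -54 * (D ^ 6 * W.c₆)⟩ := by
  refine ⟨⟨Units.mk0 (6 * D) (mul_ne_zero (by norm_num) hD), (6 * D) ^ 2 * W.b₂ / 12,
    (6 * D) * W.a₁ / 2, (6 * D) ^ 3 * W.a₃ / 2⟩, ?_⟩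
  ext
  · simp only [variableChange_a₁, Units.val_inv_eq_inv_val, Units.val_mk0, map_a₁, eq_intCast]
    field_simp
    ring
  · simp only [variableChange_a₂, Units.val_inv_eq_inv_val, Units.val_mk0, map_a₂, eq_intCast, WeierstrassCurve.b₂]
    push_cast
    field_simp
    ring
  · simp only [variableChange_a₃, Units.val_inv_eq_inv_val, Units.val_mk0, map_a₃, eq_intCast, WeierstrassCurve.b₂]
    push_cast
    field_simp
    ring
  · simp only [variableChange_a₄, Units.val_inv_eq_inv_val, Units.val_mk0, map_a₄, eq_intCast, WeierstrassCurve.b₂,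
      WeierstrassCurve.c₄, WeierstrassCurve.b₄]
    push_cast
    field_simp
    ring
  · simp only [variableChange_a₆, Units.val_inv_eq_inv_val, Units.val_mk0, map_a₆, eq_intCast, WeierstrassCurve.b₂,
      WeierstrassCurve.c₄, WeierstrassCurve.b₄, WeierstrassCurve.c₆, WeierstrassCurve.b₆]
    push_cast
    field_simp
    ring

end Fermat.Agent.S52B
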