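import Fermat.Agent.S52B.W0
import Fermat.Agent.ImW.Curve

/-!
# The Galois action on the icosahedral vectors
-/

set_option autoImplicit false
set_option linter.unusedSectionVars false
set_option linter.style.haveILetI false

noncomputable section

namespace Fermat.Agent.S52B

open Matrix Module WeierstrassCurve Fermat.Agent.S52L Fermat.Agent.GalRep Fermat.Agent.PRem
  Fermat.Agent.CL Fermat.Agent.ImW Fermat.Agent.EC Fermat.Agent.Sel

local notation "Ω" => AlgebraicClosure ℚ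

local notation "𝒢" => (AlgebraicClosure ℚ) ≃ₐ[ℚ] (AlgebraicClosure ℚ)

/-- the output of the geometric part -/
structure Sys (d : ℤ)
    (Pr : ∀ V : WeierstrassCurve ℤ, Ω → Ω → Ω → TE (EQ V) 5 → TE (EQ V) 5 → Prop) : Prop where
  ex : ∀ (V : WeierstrassCurve ℤ), V.Δ ≠ 0 → ∀ z a b : Ω, z ^ 4 + z ^ 3 + z ^ 2 + z + 1 = 0 →
    C4 a b = (d : Ω) ^ 4 * V.c₄ → C6 a b = (d : Ω) ^ 6 * V.c₆ → ∃ p q, Pr V z a b p q
  li : ∀ {V : WeierstrassCurve ℤ} {z a b : Ω} {p q : TE (EQ V) 5}, Pr V z a b p q →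
    ∀ i j : ZMod 5, i • p + j • q = 0 → i = 0 ∧ j = 0
  uniq : ∀ {V : WeierstrassCurve ℤ} {z a b : Ω} {p q p' q' : TE (EQ V) 5}, Pr V z a b p q →
    Pr V z a b p' q' → p = p' ∧ q = q'
  gal : ∀ {V : WeierstrassCurve ℤ} {z a b : Ω} {p q : TE (EQ V) 5}, Pr V z a b p q →
    ∀ σ : 𝒢, Pr V (σ z) (σ a) (σ b) (σ • p) (σ • q)
  pow : ∀ {V : WeierstrassCurve ℤ} {z a b : Ω} {p q : TE (EQ V) 5}, Pr V z a b p q →
    ∀ j : ZMod 5, j ≠ 0 → Pr V (z ^ j.val) a b (j • p) q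
  cov : ∀ {V : WeierstrassCurve ℤ} {z a b a' b' : Ω} {p q : TE (EQ V) 5} {g : M2 (ZMod 5)},
    z ^ 4 + z ^ 3 + z ^ 2 + z + 1 = 0 → Pr V z a b p q → DD a' b' = DD a b → g.det = 1 →
    Pr V z a' b' (g 0 0 • p + g 1 0 • q) (g 0 1 • p + g 1 1 • q) → ∀ x y : Ω,
      C4 (va a' b' x y) (vb a' b' x y) = C4 (va a b x y) (vb a b x y) ∧
      C6 (va a' b' x y) (vb a' b' x y) = C6 (va a b x y) (vb a b x y) ∧
      DD (va a' b' x y) (vb a' b' x y) = DD (va a b x y) (vb a b x y) ∧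
      ∀ (V' : WeierstrassCurve ℤ) (p' q' : TE (EQ V') 5),
        Pr V' z (va a b x y) (vb a b x y) p' q' →
        Pr V' z (va a' b' x y) (vb a' b' x y) (g 0 0 • p' + g 1 0 • q') (g 0 1 • p' + g 1 1 • q')
  inj : ∀ {V : WeierstrassCurve ℤ} {z a b a' b' : Ω} {p q : TE (EQ V) 5}, Pr V z a b p q →
    Pr V z a' b' p q → DD a b = DD a' b' → a = a' ∧ b = b'

theorem gal_DD (σ : 𝒢) (a b : Ω) : σ (DD a b) = DD (σ a) (σ b) :=
  map_DD (σ : Ω →+* Ω) a b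

theorem gal_C4 (σ : 𝒢) (a b : Ω) : σ (C4 a b) = C4 (σ a) (σ b) :=
  map_C4 (σ : Ω →+* Ω) a b

theorem gal_C6 (σ : 𝒢) (a b : Ω) : σ (C6 a b) = C6 (σ a) (σ b) :=
  map_C6 (σ : Ω →+* Ω) a b

theorem gal_va (σ : 𝒢) (a b x y : Ω) : σ (va a b x y) = va (σ a) (σ b) (σ x) (σ y) :=
  map_va (σ : Ω →+* Ω) a b x y

theorem gal_vb (σ : 𝒢) (a b x y : Ω) : σ (vb a b x y) = vb (σ a) (σ b) (σ x) (σ y) :=
  map_vb (σ : Ω →+* Ω) a b x y

theorem pow_five {z : Ω} (hz : z ^ 4 + z ^ 3 + z ^ 2 + z + 1 = 0) : z ^ 5 = 1 := by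
  linear_combination (z - 1) * hz

theorem gal_z {z : Ω} (hz : z ^ 4 + z ^ 3 + z ^ 2 + z + 1 = 0) (σ : 𝒢) :
    σ z = z ^ (cyc 5 σ).val := apply_eq_pow_cyc 5 σ (pow_five hz)

theorem cyc_ne_zero (σ : 𝒢) : cyc 5 σ ≠ 0 := by
  intro h
  have h1 : cyc 5 σ * cyc 5 σ⁻¹ = 1 := by rw [← map_mul, mul_inv_cancel, map_one]
  rw [h, zero_mul] at h1
  exact absurd h1 (by decide)

theorem pow_val_mul {z : Ω} (hz : z ^ 5 = 1) {k j : ZMod 5} (h : k * j = 1) :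
    (z ^ k.val) ^ j.val = z := by
  have h1 : k.val * j.val % 5 = 1 := by
    have h2 := congrArg ZMod.val h
    rw [ZMod.val_mul] at h2
    exact h2
  rw [← pow_mul, ← Nat.div_add_mod (k.val * j.val) 5, h1, pow_add, pow_mul, hz, one_pow, one_mul,
    pow_one]

variable [h5 : Fact (Nat.Prime 5)] {d : ℤ} {Pr : ∀ V : WeierstrassCurve ℤ, Ω → Ω → Ω → TE (EQ V) 5 → TE (EQ V) 5 → Prop}

/-- the Galois action with the normalised root of unity -/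
theorem Sys.gal' (S : Sys d Pr) {V : WeierstrassCurve ℤ} {z a b : Ω} {p q : TE (EQ V) 5}
    (hz : z ^ 4 + z ^ 3 + z ^ 2 + z + 1 = 0) (h : Pr V z a b p q) (σ : 𝒢) :
    Pr V z (σ a) (σ b) ((cyc 5 σ)⁻¹ • σ • p) (σ • q) := by
  have h1 := S.pow (S.gal h σ) (cyc 5 σ)⁻¹ (inv_ne_zero (cyc_ne_zero σ))
  rwa [gal_z hz, pow_val_mul (pow_five hz) (mul_inv_cancel₀ (cyc_ne_zero σ))] at h1

/-- the basis attached to an icosahedral vector -/
def Sys.basis (S : Sys d Pr) {V : WeierstrassCurve ℤ} (hV : V.Δ ≠ 0) {z a b : Ω}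
    {p q : TE (EQ V) 5} (h : Pr V z a b p q) : Basis (Fin 2) (ZMod 5) (TE (EQ V) 5) :=
  haveI := isElliptic_EQ hV
  haveI : Finite (TE (EQ V) 5) := finite_TE (E := EQ V) (p := 5) (by norm_num)
  basisOfLinearIndependentOfCardEqFinrank (b := ![p, q])
    (LinearIndependent.pair_iff.2 (S.li h)) (by
      rw [Fintype.card_fin, finrank_TE (E := EQ V) (p := 5) (by norm_num)])

theorem Sys.basis_zero (S : Sys d Pr) {V : WeierstrassCurve ℤ} (hV : V.Δ ≠ 0) {z a b : Ω}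
    {p q : TE (EQ V) 5} (h : Pr V z a b p q) : S.basis hV h 0 = p := by
  rw [Sys.basis, coe_basisOfLinearIndependentOfCardEqFinrank]; rfl

theorem Sys.basis_one (S : Sys d Pr) {V : WeierstrassCurve ℤ} (hV : V.Δ ≠ 0) {z a b : Ω}
    {p q : TE (EQ V) 5} (h : Pr V z a b p q) : S.basis hV h 1 = q := by
  rw [Sys.basis, coe_basisOfLinearIndependentOfCardEqFinrank]; rfl

/-- the matrix of the Galois action -/
def Sys.mat (S : Sys d Pr) {V : WeierstrassCurve ℤ} (hV : V.Δ ≠ 0) {z a b : Ω}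
    {p q : TE (EQ V) 5} (h : Pr V z a b p q) (σ : 𝒢) : M2 (ZMod 5) :=
  LinearMap.toMatrix (S.basis hV h) (S.basis hV h) (repE (EQ V) 5 σ)

theorem Sys.mat_p (S : Sys d Pr) {V : WeierstrassCurve ℤ} (hV : V.Δ ≠ 0) {z a b : Ω}
    {p q : TE (EQ V) 5} (h : Pr V z a b p q) (σ : 𝒢) :
    σ • p = S.mat hV h σ 0 0 • p + S.mat hV h σ 1 0 • q := by
  have h1 := LinearMap.toMatrix_apply (S.basis hV h) (S.basis hV h) (repE (EQ V) 5 σ)
  have h2 := (S.basis hV h).sum_repr (repE (EQ V) 5 σ (S.basis hV h 0))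
  rw [Fin.sum_univ_two, ← h1, ← h1, S.basis_zero hV h, S.basis_one hV h] at h2
  exact h2.symm

theorem Sys.mat_q (S : Sys d Pr) {V : WeierstrassCurve ℤ} (hV : V.Δ ≠ 0) {z a b : Ω}
    {p q : TE (EQ V) 5} (h : Pr V z a b p q) (σ : 𝒢) :
    σ • q = S.mat hV h σ 0 1 • p + S.mat hV h σ 1 1 • q := by
  have h1 := LinearMap.toMatrix_apply (S.basis hV h) (S.basis hV h) (repE (EQ V) 5 σ)
  have h2 := (S.basis hV h).sum_repr (repE (EQ V) 5 σ (S.basis hV h 1))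
  rw [Fin.sum_univ_two, ← h1, ← h1, S.basis_zero hV h, S.basis_one hV h] at h2
  exact h2.symm

theorem Sys.det_mat (S : Sys d Pr) {V : WeierstrassCurve ℤ} (hV : V.Δ ≠ 0) {z a b : Ω}
    {p q : TE (EQ V) 5} (h : Pr V z a b p q) (σ : 𝒢) :
    (S.mat hV h σ).det = LinearMap.det (repE (EQ V) 5 σ) :=
  LinearMap.det_toMatrix _ _

/-- **the Galois group acts on the family through the icosahedral group** -/
theorem Sys.cov_gal (S : Sys d Pr) {V : WeierstrassCurve ℤ} (hV : V.Δ ≠ 0) {z a b : Ω}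
    {p q : TE (EQ V) 5} (hz : z ^ 4 + z ^ 3 + z ^ 2 + z + 1 = 0) (h : Pr V z a b p q) (σ : 𝒢)
    (hdet : LinearMap.det (repE (EQ V) 5 σ) = cyc 5 σ) (hD : σ (DD a b) = DD a b) (x y : ℚ) :
    σ (C4 (va a b x y) (vb a b x y)) = C4 (va a b x y) (vb a b x y) ∧
      σ (C6 (va a b x y) (vb a b x y)) = C6 (va a b x y) (vb a b x y) ∧
      σ (DD (va a b x y) (vb a b x y)) = DD (va a b x y) (vb a b x y) ∧
      ∀ (V' : WeierstrassCurve ℤ) (p' q' : TE (EQ V') 5),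
        Pr V' z (va a b x y) (vb a b x y) p' q' →
        Pr V' z (σ (va a b x y)) (σ (vb a b x y))
          ((cyc 5 σ)⁻¹ • (S.mat hV h σ 0 0 • p' + S.mat hV h σ 1 0 • q'))
          (S.mat hV h σ 0 1 • p' + S.mat hV h σ 1 1 • q') := by
  have hx : ∀ (x : ℚ), σ (x : Ω) = (x : Ω) := fun x => map_ratCast σ x
  have hgd : (S.mat hV h σ).det = cyc 5 σ := by rw [S.det_mat hV h, hdet]
  set g := S.mat hV h σ with hg
  set k := cyc 5 σ with hk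
  have hk0 : k ≠ 0 := cyc_ne_zero σ
  have hm : (!![k⁻¹ * g 0 0, g 0 1; k⁻¹ * g 1 0, g 1 1] : M2 (ZMod 5)).det = 1 := by
    rw [det_fin_two_of]
    rw [det_fin_two] at hgd
    have : k⁻¹ * g 0 0 * g 1 1 - g 0 1 * (k⁻¹ * g 1 0) = k⁻¹ * (g 0 0 * g 1 1 - g 0 1 * g 1 0) := by
      ring
    rw [this, hgd, inv_mul_cancel₀ hk0]
  have h2 := S.gal' hz h σ
  rw [S.mat_p hV h, S.mat_q hV h, ← hg, ← hk, smul_add, smul_smul, smul_smul] at h2
  have h3 := S.cov hz h (by rw [← gal_DD, hD]) hm (by simpa using h2) x y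
  simp only [of_apply, cons_val', cons_val_zero, cons_val_one, cons_val_fin_one] at h3
  rw [gal_C4, gal_C6, gal_DD, gal_va, gal_vb, hx, hx]
  refine ⟨h3.1, h3.2.1, h3.2.2.1, fun V' p' q' h' => ?_⟩
  have h4 := h3.2.2.2 V' p' q' h'
  rwa [smul_add, smul_smul, smul_smul]

/-- an element fixed by the Galois group is rational -/
theorem exists_rat {x : Ω} (h : ∀ σ : 𝒢, σ x = x) : ∃ r : ℚ, x = algebraMap ℚ Ω r := by
  obtain ⟨r, hr⟩ := (InfiniteGalois.mem_bot_iff_fixed (k := ℚ) (K := Ω) x).2 h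
  exact ⟨r, hr.symm⟩

/-- **rationality of the invariants of the family** -/
theorem Sys.rational (S : Sys d Pr) {V : WeierstrassCurve ℤ} (hV : V.Δ ≠ 0) {z a b : Ω}
    {p q : TE (EQ V) 5} (hz : z ^ 4 + z ^ 3 + z ^ 2 + z + 1 = 0) (h : Pr V z a b p q)
    (hdet : ∀ σ : 𝒢, LinearMap.det (repE (EQ V) 5 σ) = cyc 5 σ)
    (hD : ∀ σ : 𝒢, σ (DD a b) = DD a b) (x y : ℚ) :
    (∃ r : ℚ, C4 (va a b x y) (vb a b x y) = algebraMap ℚ Ω r) ∧
      (∃ r : ℚ, C6 (va a b x y) (vb a b x y) = algebraMap ℚ Ω r) ∧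
      ∃ r : ℚ, DD (va a b x y) (vb a b x y) = algebraMap ℚ Ω r := by
  refine ⟨exists_rat fun σ => ?_, exists_rat fun σ => ?_, exists_rat fun σ => ?_⟩
  · exact (S.cov_gal hV hz h σ (hdet σ) (hD σ) x y).1
  · exact (S.cov_gal hV hz h σ (hdet σ) (hD σ) x y).2.1
  · exact (S.cov_gal hV hz h σ (hdet σ) (hD σ) x y).2.2.1

/-- the Galois action on the torsion of a member of the family -/
theorem Sys.smul_eq (S : Sys d Pr) {V : WeierstrassCurve ℤ} (hV : V.Δ ≠ 0) {z a b : Ω}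
    {p q : TE (EQ V) 5} (hz : z ^ 4 + z ^ 3 + z ^ 2 + z + 1 = 0) (h : Pr V z a b p q)
    (σ : 𝒢) (hdet : LinearMap.det (repE (EQ V) 5 σ) = cyc 5 σ)
    (hD : σ (DD a b) = DD a b) (x y : ℚ) {V' : WeierstrassCurve ℤ}
    {p' q' : TE (EQ V') 5} (h' : Pr V' z (va a b x y) (vb a b x y) p' q') :
    σ • p' = S.mat hV h σ 0 0 • p' + S.mat hV h σ 1 0 • q' ∧
      σ • q' = S.mat hV h σ 0 1 • p' + S.mat hV h σ 1 1 • q' := by
  have h1 := S.gal' hz h' σ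
  obtain ⟨h2, h3⟩ := S.uniq h1 ((S.cov_gal hV hz h σ hdet hD x y).2.2.2 V' p' q' h')
  refine ⟨?_, h3⟩
  have h4 := congrArg (fun v => cyc 5 σ • v) h2
  simpa only [smul_smul, mul_inv_cancel₀ (cyc_ne_zero σ), one_smul] using h4

theorem Sys.mat_rel (S : Sys d Pr) {V : WeierstrassCurve ℤ} (hV : V.Δ ≠ 0) {z a b : Ω}
    {p q : TE (EQ V) 5} (h : Pr V z a b p q) (σ : 𝒢) {A l : ZMod 5}
    (hr : repE (EQ V) 5 σ * repE (EQ V) 5 σ - A • repE (EQ V) 5 σ +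
      l • (1 : Module.End (ZMod 5) (TE (EQ V) 5)) = 0) :
    S.mat hV h σ * S.mat hV h σ - A • S.mat hV h σ + l • (1 : M2 (ZMod 5)) = 0 := by
  have h1 := congrArg (LinearMap.toMatrix (S.basis hV h) (S.basis hV h)) hr
  rw [map_add, map_sub, map_smul, map_smul, LinearMap.toMatrix_mul, LinearMap.toMatrix_one,
    _root_.map_zero] at h1
  exact h1

/-- **the traces of Frobenius of the members of the family are congruent modulo `5`** -/
theorem Sys.ap_congr (S : Sys d Pr) {V : WeierstrassCurve ℤ} (hV : V.Δ ≠ 0) {z a b : Ω}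
    {p q : TE (EQ V) 5} (hz : z ^ 4 + z ^ 3 + z ^ 2 + z + 1 = 0) (h : Pr V z a b p q)
    (hdet : ∀ σ : 𝒢, LinearMap.det (repE (EQ V) 5 σ) = cyc 5 σ)
    (hD : ∀ σ : 𝒢, σ (DD a b) = DD a b) (x y : ℚ) {V' : WeierstrassCurve ℤ} (hV' : V'.Δ ≠ 0)
    (h4 : C4 (va a b x y) (vb a b x y) = (d : Ω) ^ 4 * V'.c₄)
    (h6 : C6 (va a b x y) (vb a b x y) = (d : Ω) ^ 6 * V'.c₆) {ℓ : ℕ} (hℓ : ℓ.Prime)
    (hg : V.IsGoodPrimeFor ℓ) (hg' : V'.IsGoodPrimeFor ℓ) (hℓ5 : ℓ ≠ 5) :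
    (5 : ℤ) ∣ V'.apOfModel ℓ - V.apOfModel ℓ := by
  obtain ⟨p', q', h'⟩ := S.ex V' hV' z _ _ hz h4 h6
  haveI := isElliptic_EQ hV
  haveI := isElliptic_EQ hV'
  obtain ⟨A, hA⟩ := Places.exists_liesOverPrime Ω hℓ
  obtain ⟨φ, hφ⟩ := Places.exists_isFrobeniusAt A hℓ hA
  have hℓ' : ¬ ℓ ∣ 5 := fun hd => hℓ5 ((Nat.prime_dvd_prime_iff_eq hℓ h5.out).1 hd)
  have hbad : ∀ {V : WeierstrassCurve ℤ}, V.IsGoodPrimeFor ℓ → ℓ ∉ badS V 1 5 := by
    intro V hg hb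
    rcases hb with hb | hb
    · exact hℓ' (by simpa using hb)
    · exact hb hg
  have hf := (frobRel_E (E := EQ V) (p := 5) (by norm_num) (isIntegralModelOf_EQ V) 1).frob ℓ hℓ
    (hbad hg) A hA φ hφ
  have hf' := (frobRel_E (E := EQ V') (p := 5) (by norm_num) (isIntegralModelOf_EQ V') 1).frob ℓ hℓ
    (hbad hg') A hA φ hφ
  set g := S.mat hV h φ with hg0
  have h1 := S.smul_eq hV hz h φ (hdet φ) (hD φ) x y h'
  have hm : S.mat hV' h' φ = g := by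
    have h2 := S.mat_p hV' h' φ
    have h3 := S.mat_q hV' h' φ
    rw [h1.1, ← hg0] at h2
    rw [h1.2, ← hg0] at h3
    have h4 := S.li h' (g 0 0 - S.mat hV' h' φ 0 0) (g 1 0 - S.mat hV' h' φ 1 0) (by
      rw [sub_smul, sub_smul, ← sub_eq_zero.2 h2]; abel)
    have h5 := S.li h' (g 0 1 - S.mat hV' h' φ 0 1) (g 1 1 - S.mat hV' h' φ 1 1) (by
      rw [sub_smul, sub_smul, ← sub_eq_zero.2 h3]; abel)
    ext i j
    fin_cases i <;> fin_cases j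
    · exact (sub_eq_zero.1 h4.1).symm
    · exact (sub_eq_zero.1 h5.1).symm
    · exact (sub_eq_zero.1 h4.2).symm
    · exact (sub_eq_zero.1 h5.2).symm
  have h2 := S.mat_rel hV h φ hf
  have h3 := S.mat_rel hV' h' φ hf'
  rw [hm] at h3
  rw [← hg0] at h2
  have h4 : (((V'.apOfModel ℓ : ℤ) : ZMod 5) - ((V.apOfModel ℓ : ℤ) : ZMod 5)) • g = 0 := by
    rw [sub_smul]
    have h5 := h2.trans h3.symm
    have h6 := sub_eq_zero.2 h5
    rw [← h6]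
    abel
  have hgd : g.det ≠ 0 := by
    rw [hg0, S.det_mat hV h, hdet]
    exact cyc_ne_zero φ
  have h5' : ((V'.apOfModel ℓ : ℤ) : ZMod 5) - ((V.apOfModel ℓ : ℤ) : ZMod 5) = 0 := by
    by_contra hne
    have h6 : g = 0 := (smul_eq_zero.1 h4).resolve_left hne
    apply hgd
    rw [h6, det_zero]
  rw [← Int.cast_sub] at h5'
  exact (ZMod.intCast_zmod_eq_zero_iff_dvd _ 5).1 h5'

/-- elements acting trivially on the torsion fix the icosahedral vector -/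
theorem Sys.fix (S : Sys d Pr) {V : WeierstrassCurve ℤ} {z a b : Ω}
    {p q : TE (EQ V) 5} (hz : z ^ 4 + z ^ 3 + z ^ 2 + z + 1 = 0) (h : Pr V z a b p q)
    (σ : 𝒢) (hσ : repE (EQ V) 5 σ = 1) (hc : cyc 5 σ = 1) (hD : σ (DD a b) = DD a b) :
    σ a = a ∧ σ b = b := by
  have h1 := S.gal' hz h σ
  have h2 : ∀ v : TE (EQ V) 5, σ • v = v := fun v => by
    have := congrArg (fun f : Module.End (ZMod 5) (TE (EQ V) 5) => f v) hσ
    exact this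
  rw [h2, h2, hc, inv_one, one_smul] at h1
  exact S.inj h1 h (by rw [← gal_DD, hD])

end Fermat.Agent.S52B
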