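import Fermat.Agent.S52B.Gal

/-!
# The icosahedral vector of a semistable curve
-/

set_option autoImplicit false
set_option linter.unusedSectionVars false
set_option linter.style.haveILetI false

noncomputable section

namespace Fermat.Agent.S52B

open Matrix Module WeierstrassCurve Fermat.Agent.S52L Fermat.Agent.GalRep Fermat.Agent.PRem
  Fermat.Agent.CL Fermat.Agent.ImW Fermat.Agent.EC Fermat.Agent.Sel

local notation "Ω" => AlgebraicClosure ℚ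

local notation "𝒢" => (AlgebraicClosure ℚ) ≃ₐ[ℚ] (AlgebraicClosure ℚ)

variable [h5 : Fact (Nat.Prime 5)] {W : WeierstrassCurve ℤ} {ρ : 𝒢 →* M2 (ZMod 5)}

theorem det_repE (h : ResW W 5 ρ) (σ : 𝒢) : LinearMap.det (repE (EQ W) 5 σ) = cyc 5 σ := by
  obtain ⟨b, hb⟩ := h.basis
  rw [← h.det σ, hb σ]
  exact (LinearMap.det_toMatrix b _).symm

theorem repE_eq_one (h : ResW W 5 ρ) {σ : 𝒢} (hσ : ρ σ = 1) : repE (EQ W) 5 σ = 1 := by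
  obtain ⟨b, hb⟩ := h.basis
  rw [hb σ] at hσ
  exact (LinearMap.toMatrixAlgEquiv b).injective (hσ.trans (map_one _).symm)

variable {Pr : ∀ V : WeierstrassCurve ℤ, Ω → Ω → Ω → TE (EQ V) 5 → TE (EQ V) 5 → Prop}

/-- **part (B)**, from the geometric part -/
theorem partB_of (hΔ : W.Δ ≠ 0) (h : ResW W 5 ρ) (S : Sys (W.Δ ^ 2) Pr) {a b : Ω}
    (h4 : C4 a b = (W.Δ : Ω) ^ 8 * W.c₄) (h6 : C6 a b = (W.Δ : Ω) ^ 12 * W.c₆)
    (hD : DD a b = (W.Δ : Ω) ^ 5) :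
    (∀ σ, ρ σ = 1 → σ a = a ∧ σ b = b) ∧
      (∀ x y : ℚ, (∃ r : ℚ, C4 (va a b x y) (vb a b x y) = algebraMap ℚ Ω r) ∧
        (∃ r : ℚ, C6 (va a b x y) (vb a b x y) = algebraMap ℚ Ω r) ∧
        ∃ r : ℚ, DD (va a b x y) (vb a b x y) = algebraMap ℚ Ω r) ∧
      ∀ (x y : ℚ) (W' : WeierstrassCurve ℤ), W'.Δ ≠ 0 →
        C4 (va a b x y) (vb a b x y) = (W.Δ : Ω) ^ 8 * W'.c₄ →
        C6 (va a b x y) (vb a b x y) = (W.Δ : Ω) ^ 12 * W'.c₆ →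
        ∀ ℓ : ℕ, ℓ.Prime → W.IsGoodPrimeFor ℓ → W'.IsGoodPrimeFor ℓ → ℓ ≠ 5 →
          (5 : ℤ) ∣ W'.apOfModel ℓ - W.apOfModel ℓ := by
  obtain ⟨z, hz'⟩ := exists_zeta 5
  have hz : z ^ 4 + z ^ 3 + z ^ 2 + z + 1 = 0 := by
    have h1 := hz'.geom_sum_eq_zero (by norm_num)
    simp only [Finset.sum_range_succ, Finset.sum_range_zero, pow_zero, pow_one] at h1
    linear_combination h1
  have e4 : ∀ c : Ω, (W.Δ : Ω) ^ 8 * c = ((W.Δ ^ 2 : ℤ) : Ω) ^ 4 * c := fun c => by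
    push_cast; ring
  have e6 : ∀ c : Ω, (W.Δ : Ω) ^ 12 * c = ((W.Δ ^ 2 : ℤ) : Ω) ^ 6 * c := fun c => by
    push_cast; ring
  obtain ⟨p, q, hP⟩ := S.ex W hΔ z a b hz (by rw [h4, e4]) (by rw [h6, e6])
  have hDσ : ∀ σ : 𝒢, σ (DD a b) = DD a b := fun σ => by rw [hD, map_pow, map_intCast]
  refine ⟨fun σ hσ => ?_, fun x y => S.rational hΔ hz hP (det_repE h) hDσ x y, ?_⟩
  · refine S.fix hz hP σ (repE_eq_one h hσ) ?_ (hDσ σ)
    rw [← h.det σ, hσ, det_one]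
  · intro x y W' hΔ' h4' h6' ℓ hℓ hg hg' hℓ5
    exact S.ap_congr hΔ hz hP (det_repE h) hDσ x y hΔ' (by rw [h4', e4]) (by rw [h6', e6]) hℓ hg
      hg' hℓ5

end Fermat.Agent.S52B
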