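import Fermat.Agent.S52L.Forms

/-!
# The icosahedral vector of an elliptic curve
-/

set_option autoImplicit false

open Polynomial

namespace Fermat.Agent.S52B

open Fermat.Agent.S52L

variable {K : Type*} [Field K]

theorem exists_cube {x y : K} (h : x ^ 3 = y ^ 3) : ∃ w : K, w ^ 3 = 1 ∧ x = w * y := by
  by_cases hy : y = 0
  · subst hy
    refine ⟨1, one_pow 3, ?_⟩
    have : x ^ 3 = 0 := by rw [h]; ring
    rw [mul_zero]
    exact pow_eq_zero_iff (three_ne_zero) |>.1 this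
  · refine ⟨x / y, ?_, (div_mul_cancel₀ x hy).symm⟩
    rw [div_pow, h, div_self (pow_ne_zero 3 hy)]

theorem exists_root_T [IsAlgClosed K] {D c : K} (hD : D ≠ 0) :
    ∃ T : K, D * (T ^ 4 + 228 * T ^ 3 + 494 * T ^ 2 - 228 * T + 1) ^ 3 =
      c ^ 3 * (T * (T ^ 2 - 11 * T - 1) ^ 5) := by
  have hdeg : (C D * (X ^ 4 + 228 * X ^ 3 + 494 * X ^ 2 - 228 * X + 1) ^ 3 -
      C (c ^ 3) * (X * (X ^ 2 - 11 * X - 1) ^ 5) : K[X]).natDegree = 12 := by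
    have h1 : (X ^ 4 + 228 * X ^ 3 + 494 * X ^ 2 - 228 * X + 1 : K[X]).natDegree = 4 := by
      compute_degree!
    have h2 : ((X ^ 4 + 228 * X ^ 3 + 494 * X ^ 2 - 228 * X + 1 : K[X]) ^ 3).natDegree = 12 := by
      rw [natDegree_pow, h1]
    have h3 : (C D * (X ^ 4 + 228 * X ^ 3 + 494 * X ^ 2 - 228 * X + 1) ^ 3 : K[X]).natDegree =
        12 := by
      rw [natDegree_C_mul hD, h2]
    have h4 : (X ^ 2 - 11 * X - 1 : K[X]).natDegree ≤ 2 := by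
      compute_degree
    have h5 : (C (c ^ 3) * (X * (X ^ 2 - 11 * X - 1) ^ 5) : K[X]).natDegree ≤ 11 := by
      refine (natDegree_C_mul_le _ _).trans ?_
      refine natDegree_mul_le.trans ?_
      have h6 := natDegree_pow_le (p := (X ^ 2 - 11 * X - 1 : K[X])) (n := 5)
      have h7 : (X : K[X]).natDegree ≤ 1 := natDegree_X_le
      omega
    rw [natDegree_sub_eq_left_of_natDegree_lt (by rw [h3]; omega), h3]
  obtain ⟨T, hT⟩ := IsAlgClosed.exists_root (C D * (X ^ 4 + 228 * X ^ 3 + 494 * X ^ 2 - 228 * X + 1) ^ 3 -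
      C (c ^ 3) * (X * (X ^ 2 - 11 * X - 1) ^ 5) : K[X]) (by
    intro h
    have h0 := natDegree_eq_zero_iff_degree_le_zero.2 h.le
    rw [hdeg] at h0
    exact absurd h0 (by norm_num))
  refine ⟨T, ?_⟩
  rw [IsRoot.def] at hT
  simp only [eval_sub, eval_mul, eval_C, eval_pow, eval_add, eval_X, eval_ofNat, eval_one] at hT
  exact sub_eq_zero.1 hT

/-- **the icosahedral vector** -/
theorem exists_vec [IsAlgClosed K] [CharZero K] {D c₄ c₆ : K} (hD : D ≠ 0)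
    (h : c₄ ^ 3 - c₆ ^ 2 = 1728 * D) :
    ∃ a b : K, C4 a b = D ^ 8 * c₄ ∧ C6 a b = D ^ 12 * c₆ ∧ DD a b = D ^ 5 := by
  obtain ⟨T, hT⟩ := exists_root_T (c := c₄) hD
  obtain ⟨t, ht⟩ := IsAlgClosed.exists_pow_nat_eq T (n := 5) (by norm_num)
  have h1 : D * C4 t 1 ^ 3 = c₄ ^ 3 * DD t 1 ^ 5 := by
    rw [← ht] at hT
    unfold C4 DD
    linear_combination hT
  have hDD : DD t 1 ≠ 0 := by
    intro h0
    rw [h0] at h1
    have h2 : C4 t 1 = 0 := by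
      have h3 : D * C4 t 1 ^ 3 = 0 := by rw [h1]; ring
      exact pow_eq_zero_iff three_ne_zero |>.1 ((mul_eq_zero.1 h3).resolve_left hD)
    exact one_ne_zero (eq_zero_of_DD_C4 (by norm_num) h0 h2).2
  have h2 : D * C6 t 1 ^ 2 = c₆ ^ 2 * DD t 1 ^ 5 := by
    linear_combination h1 - D * syzygy t 1 + DD t 1 ^ 5 * h
  obtain ⟨s₀, hs₀⟩ := IsAlgClosed.exists_pow_nat_eq (D ^ 5 / DD t 1) (n := 12) (by norm_num)
  have hs₀' : s₀ ^ 12 * DD t 1 = D ^ 5 := by rw [hs₀, div_mul_cancel₀ _ hDD]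
  have h3 : (s₀ ^ 20 * C4 t 1) ^ 3 = (D ^ 8 * c₄) ^ 3 := by
    have h4 : D * DD t 1 ^ 5 * (s₀ ^ 20 * C4 t 1) ^ 3 = D * DD t 1 ^ 5 * (D ^ 8 * c₄) ^ 3 := by
      have h5 : (s₀ ^ 12 * DD t 1) ^ 5 = D ^ 25 := by rw [hs₀']; ring
      linear_combination (s₀ ^ 60 * DD t 1 ^ 5) * h1 + c₄ ^ 3 * DD t 1 ^ 5 * h5
    exact mul_left_cancel₀ (mul_ne_zero hD (pow_ne_zero 5 hDD)) h4
  obtain ⟨w, hw, hw'⟩ := exists_cube h3
  set s₁ := w * s₀ with hs₁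
  have h4 : s₁ ^ 20 * C4 t 1 = D ^ 8 * c₄ := by
    rw [hs₁]
    linear_combination w ^ 20 * hw' + (D ^ 8 * c₄) * (w ^ 18 + w ^ 15 + w ^ 12 + w ^ 9 + w ^ 6 + w ^ 3 + 1) * hw
  have h5 : s₁ ^ 12 * DD t 1 = D ^ 5 := by
    rw [hs₁]
    linear_combination w ^ 12 * hs₀' + D ^ 5 * (w ^ 9 + w ^ 6 + w ^ 3 + 1) * hw
  have h6 : (s₁ ^ 30 * C6 t 1) ^ 2 = (D ^ 12 * c₆) ^ 2 := by
    have h7 : D * DD t 1 ^ 5 * (s₁ ^ 30 * C6 t 1) ^ 2 = D * DD t 1 ^ 5 * (D ^ 12 * c₆) ^ 2 := by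
      have h8 : (s₁ ^ 12 * DD t 1) ^ 5 = D ^ 25 := by rw [h5]; ring
      linear_combination (s₁ ^ 60 * DD t 1 ^ 5) * h2 + c₆ ^ 2 * DD t 1 ^ 5 * h8
    exact mul_left_cancel₀ (mul_ne_zero hD (pow_ne_zero 5 hDD)) h7
  rcases sq_eq_sq_iff_eq_or_eq_neg.1 h6 with h7 | h7
  · refine ⟨s₁ * t, s₁ * 1, ?_, ?_, ?_⟩
    · rw [C4_smul, h4]
    · rw [C6_smul, h7]
    · rw [DD_smul, h5]
  · obtain ⟨i, hi⟩ := IsAlgClosed.exists_pow_nat_eq (-1 : K) (n := 2) (by norm_num)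
    refine ⟨i * s₁ * t, i * s₁ * 1, ?_, ?_, ?_⟩
    · rw [C4_smul]
      have : (i * s₁) ^ 20 = s₁ ^ 20 := by
        have : i ^ 20 = 1 := by rw [show 20 = 2 * 10 from rfl, pow_mul, hi]; norm_num
        rw [mul_pow, this, one_mul]
      rw [this, h4]
    · rw [C6_smul]
      have : (i * s₁) ^ 30 = - s₁ ^ 30 := by
        have : i ^ 30 = -1 := by rw [show 30 = 2 * 15 from rfl, pow_mul, hi]; norm_num
        rw [mul_pow, this, neg_one_mul]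
      rw [this, neg_mul, h7, neg_neg]
    · rw [DD_smul]
      have : (i * s₁) ^ 12 = s₁ ^ 12 := by
        have : i ^ 12 = 1 := by rw [show 12 = 2 * 6 from rfl, pow_mul, hi]; norm_num
        rw [mul_pow, this, one_mul]
      rw [this, h5]

end Fermat.Agent.S52B
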